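import Mathlib.Algebra.BigOperators.Group.Finset.Powerset
import Mathlib.Algebra.BigOperators.Ring.Finset
import Mathlib.Algebra.Order.Ring.Pow
import Mathlib.Data.Real.Basic
import Mathlib.Tactic

/-!
# The theorem of Park and Pham

If no cover of an `ℓ`-bounded hypergraph has cost `∑ p ^ |T|` below `c`, the union of `k` random
sets of density `s ^ 2 p`, `ℓ < 2 ^ k`, misses all edges with probability `≤ 1 / (s c)`. After one
round the large minimum fragments are a cheap part of a cover and the small ones are a hypergraph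
of half the edge size (the argument of Park and Pham, run directly in the product measure).
-/

set_option autoImplicit false

noncomputable section

namespace FA.KahnKalai

open Finset

variable {α : Type*} [DecidableEq α]

/-- The expectation of `g` over a `p`-random subset of `s`. -/
def biasedSum (s : Finset α) (p : ℝ) (g : Finset α → ℝ) : ℝ :=
  ∑ W ∈ s.powerset, p ^ #W * (1 - p) ^ (#s - #W) * g W

theorem biasedSum_insert {s : Finset α} {a : α} (ha : a ∉ s) (p : ℝ) (g : Finset α → ℝ) :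
    biasedSum (insert a s) p g =
      (1 - p) * biasedSum s p g + p * biasedSum s p (fun W => g (insert a W)) := by
  rw [biasedSum, sum_powerset_insert ha, biasedSum, biasedSum, mul_sum, mul_sum]
  congr 1 <;> refine sum_congr rfl fun W hW => ?_
  · have := card_le_card (mem_powerset.1 hW)
    rw [card_insert_of_notMem ha, Nat.succ_sub this, pow_succ]
    ring
  · rw [card_insert_of_notMem ha, card_insert_of_notMem fun h => ha (mem_powerset.1 hW h),
      Nat.add_sub_add_right, pow_succ]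
    ring

omit [DecidableEq α] in
theorem biasedSum_add (s : Finset α) (p a b : ℝ) (f g : Finset α → ℝ) :
    biasedSum s p (fun W => a * f W + b * g W) =
      a * biasedSum s p f + b * biasedSum s p g := by
  simp only [biasedSum, mul_sum, ← sum_add_distrib]
  exact sum_congr rfl fun W _ => by ring

theorem biasedSum_union (s : Finset α) (p r : ℝ) : ∀ g : Finset α → ℝ,
    biasedSum s p (fun W => biasedSum s r fun U => g (W ∪ U)) =
      biasedSum s (1 - (1 - p) * (1 - r)) g := by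
  induction s using Finset.induction_on with
  | empty => intro g; simp [biasedSum]
  | insert a s ha ih =>
    intro g
    simp only [biasedSum_insert ha, biasedSum_add, union_insert, insert_union, insert_idem]
    have h2 := ih fun V => g (insert a V)
    rw [ih g, h2]
    ring

omit [DecidableEq α] in
theorem biasedSum_one (s : Finset α) (p : ℝ) : biasedSum s p (fun _ => 1) = 1 := by
  simp [biasedSum, sum_pow_mul_eq_add_pow]

omit [DecidableEq α] in
theorem biasedSum_le {s : Finset α} {p : ℝ} (hp : 0 ≤ p) (hp1 : p ≤ 1) {f g : Finset α → ℝ}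
    (h : ∀ W, f W ≤ g W) : biasedSum s p f ≤ biasedSum s p g :=
  sum_le_sum fun W _ => mul_le_mul_of_nonneg_left (h W)
    (mul_nonneg (pow_nonneg hp _) (pow_nonneg (sub_nonneg.2 hp1) _))

omit [DecidableEq α] in
theorem biasedSum_nonneg {s : Finset α} {p : ℝ} (hp : 0 ≤ p) (hp1 : p ≤ 1) {f : Finset α → ℝ}
    (h : ∀ W, 0 ≤ f W) : 0 ≤ biasedSum s p f :=
  sum_nonneg fun W _ =>
    mul_nonneg (mul_nonneg (pow_nonneg hp _) (pow_nonneg (sub_nonneg.2 hp1) _)) (h W)

omit [DecidableEq α] in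
theorem biasedSum_mul (s : Finset α) (p c : ℝ) (f : Finset α → ℝ) :
    biasedSum s p f * c = biasedSum s p (fun W => f W * c) := by
  simp only [biasedSum, sum_mul, mul_assoc]

/-- `G` covers `H`: every member of `H` contains a member of `G`. -/
def Covers (G H : Finset (Finset α)) : Prop := ∀ S ∈ H, ∃ T ∈ G, T ⊆ S

/-- The cost of a family. -/
def cost (p : ℝ) (G : Finset (Finset α)) : ℝ := ∑ T ∈ G, p ^ #T

/-- One if `Z` contains no edge. -/
def miss (H : Finset (Finset α)) (Z : Finset α) : ℝ := if ∀ S ∈ H, ¬S ⊆ Z then 1 else 0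

theorem miss_nonneg (H : Finset (Finset α)) (Z : Finset α) : 0 ≤ miss H Z := by
  unfold miss; split_ifs <;> norm_num

theorem miss_le_one (H : Finset (Finset α)) (Z : Finset α) : miss H Z ≤ 1 := by
  unfold miss; split_ifs <;> norm_num

/-- The minimum fragments. -/
def fragments (H : Finset (Finset α)) (W : Finset α) : Finset (Finset α) :=
  (H.image fun S => S \ W).filter fun T => ∀ S ∈ H, S ⊆ W ∪ T → #T ≤ #(S \ W)

/-- The fragments with more than `m` elements. -/
def largeFrag (H : Finset (Finset α)) (m : ℕ) (W : Finset α) : Finset (Finset α) :=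
  (fragments H W).filter fun T => m < #T

/-- The other fragments. -/
def smallFrag (H : Finset (Finset α)) (m : ℕ) (W : Finset α) : Finset (Finset α) :=
  (fragments H W).filter fun T => #T ≤ m

theorem mem_fragments {H : Finset (Finset α)} {W T : Finset α} (hT : T ∈ fragments H W) :
    Disjoint W T ∧ ∃ S ∈ H, S ⊆ W ∪ T := by
  obtain ⟨h, -⟩ := mem_filter.1 hT
  obtain ⟨S, hS, rfl⟩ := mem_image.1 h
  exact ⟨disjoint_sdiff, S, hS, by rw [union_sdiff_self_eq_union]; exact subset_union_right⟩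

theorem fragment_subset {H : Finset (Finset α)} {W T S : Finset α} (hT : T ∈ fragments H W)
    (hS : S ∈ H) (hSZ : S ⊆ W ∪ T) : T ⊆ S := by
  have h1 : S \ W ⊆ T := sdiff_le_iff.2 hSZ
  rw [← eq_of_subset_of_card_le h1 ((mem_filter.1 hT).2 S hS hSZ)]
  exact sdiff_subset

theorem covers_fragments (H : Finset (Finset α)) (W : Finset α) : Covers (fragments H W) H := by
  intro S hS
  obtain ⟨S', hS', hmin⟩ := exists_min_image (H.filter fun S' => S' ⊆ W ∪ S) (fun S' => #(S' \ W))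
    ⟨S, mem_filter.2 ⟨hS, subset_union_right⟩⟩
  obtain ⟨hS'H, hS'sub⟩ := mem_filter.1 hS'
  have hsub : S' \ W ⊆ S := sdiff_le_iff.2 hS'sub
  refine ⟨S' \ W, mem_filter.2 ⟨mem_image_of_mem _ hS'H, fun S'' h hsub' => ?_⟩, hsub⟩
  exact hmin S'' (mem_filter.2 ⟨h, hsub'.trans (union_subset_union_right hsub)⟩)

theorem miss_union_le (H : Finset (Finset α)) (m : ℕ) (W U : Finset α) :
    miss H (W ∪ U) ≤ miss (smallFrag H m W) U := by
  by_cases h : ∀ T ∈ smallFrag H m W, ¬T ⊆ U
  · rw [miss, miss, if_pos h]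
    split_ifs <;> norm_num
  · have h' : ¬∀ S ∈ H, ¬S ⊆ W ∪ U := by
      push Not at h ⊢
      obtain ⟨T, hT, hTU⟩ := h
      obtain ⟨-, S, hS, hSZ⟩ := mem_fragments (mem_filter.1 hT).1
      exact ⟨S, hS, hSZ.trans (union_subset_union_right hTU)⟩
    rw [miss, if_neg h']
    exact miss_nonneg _ _

variable [Fintype α]

/-- **The cost of the large fragments.** -/
theorem biasedSum_cost_large_le {H : Finset (Finset α)} {ℓ : ℕ} (hH : ∀ S ∈ H, #S ≤ ℓ) {p s : ℝ}
    (hp : 0 < p) (hs : 4 ≤ s) (hq : s ^ 2 * p ≤ 1) :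
    biasedSum univ (s ^ 2 * p) (fun W => cost p (largeFrag H (ℓ / 2) W)) ≤
      1 / s * (1 / 2) ^ ℓ := by
  obtain ⟨q, hqdef⟩ : ∃ q, q = s ^ 2 * p := ⟨_, rfl⟩
  rw [← hqdef] at hq ⊢
  have hs0 : 0 < s := by linarith
  have hq0 : 0 ≤ q := by rw [hqdef]; positivity
  have hpick : ∀ Z : Finset α, ∃ E : Finset α, #E ≤ ℓ ∧
      ((∃ S ∈ H, S ⊆ Z) → E ∈ H ∧ E ⊆ Z) := fun Z => by
    by_cases h : ∃ S ∈ H, S ⊆ Z
    · obtain ⟨E, hE, hEZ⟩ := h
      exact ⟨E, hH E hE, fun _ => ⟨hE, hEZ⟩⟩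
    · exact ⟨∅, by simp, fun h' => absurd h' h⟩
  choose pick hpickℓ hpick using hpick
  obtain ⟨w, hw⟩ : ∃ w : Finset α → ℝ,
      w = fun W => q ^ #W * (1 - q) ^ (#(univ : Finset α) - #W) := ⟨_, rfl⟩
  have hw0 : ∀ W, 0 ≤ w W := fun W => by
    rw [hw]; exact mul_nonneg (pow_nonneg hq0 _) (pow_nonneg (sub_nonneg.2 hq) _)
  have hterm : ∀ W T : Finset α, Disjoint W T →
      w W * p ^ #T ≤ w (W ∪ T) * (1 / s ^ 2) ^ #T := fun W T hd => by
    have hc := card_le_univ (W ∪ T)
    rw [card_union_of_disjoint hd, ← card_univ] at hc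
    have e : #(univ : Finset α) - #W = (#(univ : Finset α) - (#W + #T)) + #T := by omega
    have e2 : p = q * (1 / s ^ 2) := by rw [hqdef]; field_simp
    simp only [hw, card_union_of_disjoint hd]
    rw [e, pow_add, pow_add, e2, mul_pow]
    calc q ^ #W * ((1 - q) ^ (#(univ : Finset α) - (#W + #T)) * (1 - q) ^ #T) *
          (q ^ #T * (1 / s ^ 2) ^ #T)
        ≤ q ^ #W * ((1 - q) ^ (#(univ : Finset α) - (#W + #T)) * 1) *
          (q ^ #T * (1 / s ^ 2) ^ #T) := by
          have h1 : (1 - q) ^ #T ≤ 1 := pow_le_one₀ (sub_nonneg.2 hq) (by linarith)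
          have h2 := pow_nonneg (sub_nonneg.2 hq) (#(univ : Finset α) - (#W + #T))
          gcongr
      _ = _ := by ring
  obtain ⟨B, hB⟩ : ∃ B : Finset α → Finset (Finset α),
      B = fun Z => (pick Z).powerset.filter fun T => ℓ / 2 < #T := ⟨_, rfl⟩
  have hbound : ∀ Z, ∑ T ∈ B Z, (1 / s ^ 2) ^ #T ≤ 1 / s * (1 / 2) ^ ℓ := fun Z => by
    have h1 : ∀ T ∈ B Z, (1 / s ^ 2) ^ #T ≤ (1 / s) ^ (ℓ + 1) := fun T hT => by
      rw [hB] at hT
      have := (mem_filter.1 hT).2
      rw [← one_div_pow, ← pow_mul]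
      exact pow_le_pow_of_le_one (by positivity) (by rw [div_le_one hs0]; linarith) (by omega)
    have h2 : (#(B Z) : ℝ) ≤ 2 ^ ℓ := by
      have : #(B Z) ≤ 2 ^ ℓ := by
        rw [hB]
        refine (card_le_card (filter_subset _ _)).trans ?_
        rw [card_powerset]
        exact Nat.pow_le_pow_right two_pos (hpickℓ Z)
      exact_mod_cast this
    calc ∑ T ∈ B Z, (1 / s ^ 2) ^ #T ≤ #(B Z) * (1 / s) ^ (ℓ + 1) := by
          simpa using sum_le_card_nsmul _ _ _ h1
      _ ≤ 2 ^ ℓ * (1 / s) ^ (ℓ + 1) := by gcongr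
      _ = 1 / s * (2 / s) ^ ℓ := by rw [pow_succ, ← mul_assoc, ← mul_pow]; ring
      _ ≤ 1 / s * (1 / 2) ^ ℓ := by
          gcongr 1 / s * ?_ ^ ℓ
          rw [div_le_div_iff₀ hs0 two_pos]
          linarith
  obtain ⟨A, hA⟩ : ∃ A, A = (univ : Finset α).powerset.sigma (largeFrag H (ℓ / 2)) := ⟨_, rfl⟩
  calc biasedSum univ q (fun W => cost p (largeFrag H (ℓ / 2) W))
      = ∑ x ∈ A, w x.1 * p ^ #x.2 := by
        simp only [biasedSum, cost, hA, hw, mul_sum, sum_sigma']
    _ ≤ ∑ x ∈ A, w (x.1 ∪ x.2) * (1 / s ^ 2) ^ #x.2 := sum_le_sum fun x hx => by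
        rw [hA] at hx
        exact hterm _ _ (mem_fragments (mem_filter.1 (mem_sigma.1 hx).2).1).1
    _ = ∑ y ∈ A.image (fun x : Σ _ : Finset α, Finset α =>
          (⟨x.1 ∪ x.2, x.2⟩ : Σ _ : Finset α, Finset α)),
          w y.1 * (1 / s ^ 2) ^ #y.2 := by
        rw [sum_image]
        intro x hx y hy h
        obtain ⟨x1, x2⟩ := x
        obtain ⟨y1, y2⟩ := y
        simp only [Sigma.mk.injEq, heq_eq_eq] at h
        rw [hA, mem_coe, mem_sigma] at hx hy
        have dx := (mem_fragments (mem_filter.1 hx.2).1).1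
        have dy := (mem_fragments (mem_filter.1 hy.2).1).1
        obtain ⟨h1, rfl⟩ := h
        simp only at dx dy
        have := congrArg (· \ x2) h1
        simp only [union_sdiff_right, sdiff_eq_self_of_disjoint dx,
          sdiff_eq_self_of_disjoint dy] at this
        rw [this]
    _ ≤ ∑ y ∈ (univ : Finset α).powerset.sigma B, w y.1 * (1 / s ^ 2) ^ #y.2 := by
        refine sum_le_sum_of_subset_of_nonneg (fun y hy => ?_)
          fun y _ _ => mul_nonneg (hw0 _) (by positivity)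
        obtain ⟨x, hx, rfl⟩ := mem_image.1 hy
        rw [hA, mem_sigma] at hx
        obtain ⟨hfr, hm⟩ := mem_filter.1 hx.2
        obtain ⟨-, S, hS, hSZ⟩ := mem_fragments hfr
        obtain ⟨hE, hEZ⟩ := hpick _ ⟨S, hS, hSZ⟩
        exact mem_sigma.2 ⟨mem_powerset.2 (subset_univ _),
          hB ▸ mem_filter.2 ⟨mem_powerset.2 (fragment_subset hfr hE hEZ), hm⟩⟩
    _ = biasedSum univ q (fun Z => ∑ T ∈ B Z, (1 / s ^ 2) ^ #T) := by
        simp only [biasedSum, hw, mul_sum, sum_sigma']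
    _ ≤ biasedSum univ q (fun _ => 1 / s * (1 / 2) ^ ℓ) := biasedSum_le hq0 hq hbound
    _ = 1 / s * (1 / 2) ^ ℓ := by
        simp only [biasedSum, ← sum_mul]
        rw [sum_pow_mul_eq_add_pow]
        simp

/-- **Park–Pham.** -/
theorem miss_mul_le {p s : ℝ} (hp : 0 < p) (hs : 4 ≤ s) (hq : s ^ 2 * p ≤ 1) :
    ∀ (k : ℕ) (H : Finset (Finset α)) (ℓ : ℕ) (c : ℝ), ℓ < 2 ^ k → (∀ S ∈ H, #S ≤ ℓ) →
      (∀ G, Covers G H → c ≤ cost p G) →
        biasedSum univ (1 - (1 - s ^ 2 * p) ^ k) (miss H) * c ≤ 1 / s * (1 - (1 / 2) ^ ℓ) := by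
  have hs0 : (0:ℝ) < s := by linarith
  have h01 : ∀ k : ℕ, 0 ≤ 1 - (1 - s ^ 2 * p) ^ k ∧ 1 - (1 - s ^ 2 * p) ^ k ≤ 1 := fun k =>
    ⟨sub_nonneg.2 (pow_le_one₀ (by linarith) (by nlinarith)),
      sub_le_self _ (pow_nonneg (by linarith) _)⟩
  have hbase : ∀ (k : ℕ) (H : Finset (Finset α)) (c : ℝ), (∀ S ∈ H, #S ≤ 0) →
      (∀ G, Covers G H → c ≤ cost p G) →
        biasedSum univ (1 - (1 - s ^ 2 * p) ^ k) (miss H) * c ≤ 0 := by
    intro k H c hH hc
    rcases H.eq_empty_or_nonempty with rfl | ⟨S, hS⟩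
    · exact mul_nonpos_of_nonneg_of_nonpos
        (biasedSum_nonneg (h01 k).1 (h01 k).2 (miss_nonneg _))
        (by simpa [cost] using hc ∅ (by simp [Covers]))
    · have : ∀ Z, miss H Z = 0 := fun Z => if_neg fun h =>
        h S hS (by rw [card_eq_zero.1 (Nat.le_zero.1 (hH S hS))]; exact empty_subset _)
      simp [biasedSum, this]
  intro k
  induction k with
  | zero =>
    intro H ℓ c hℓ hH hc
    obtain rfl : ℓ = 0 := by simpa using hℓ
    simpa using hbase 0 H c hH hc
  | succ k ih =>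
    intro H ℓ c hℓ hH hc
    have hRHS : 0 ≤ 1 / s * (1 - (1 / 2 : ℝ) ^ ℓ) :=
      mul_nonneg (by positivity) (sub_nonneg.2 (pow_le_one₀ (by norm_num) (by norm_num)))
    rcases le_or_gt c 0 with hc0 | hc0
    · exact (mul_nonpos_of_nonneg_of_nonpos
        (biasedSum_nonneg (h01 _).1 (h01 _).2 (miss_nonneg H)) hc0).trans hRHS
    rcases Nat.eq_zero_or_pos ℓ with rfl | hℓ0
    · simpa using hbase (k + 1) H c hH hc
    obtain ⟨r, hr⟩ : ∃ r, r = 1 - (1 - s ^ 2 * p) ^ k := ⟨_, rfl⟩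
    have hstep : ∀ W, biasedSum univ r (fun U => miss H (W ∪ U)) * c ≤
        1 / s * (1 - (1 / 2) ^ (ℓ / 2)) + cost p (largeFrag H (ℓ / 2) W) := fun W => by
      have hr01 := hr ▸ h01 k
      have hG0 : 0 ≤ cost p (largeFrag H (ℓ / 2) W) := sum_nonneg fun T _ => by positivity
      have hle := ih (smallFrag H (ℓ / 2) W) (ℓ / 2) (c - cost p (largeFrag H (ℓ / 2) W))
        (by rw [pow_succ] at hℓ; omega) (fun T hT => (mem_filter.1 hT).2) fun G hG => by
          have hcov : Covers (largeFrag H (ℓ / 2) W ∪ G) H := fun S hS => by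
            obtain ⟨T, hT, hTS⟩ := covers_fragments H W S hS
            by_cases hm : ℓ / 2 < #T
            · exact ⟨T, mem_union_left _ (mem_filter.2 ⟨hT, hm⟩), hTS⟩
            · obtain ⟨T', hT', hT'T⟩ := hG T (mem_filter.2 ⟨hT, not_lt.1 hm⟩)
              exact ⟨T', mem_union_right _ hT', hT'T.trans hTS⟩
          have h := hc _ hcov
          have h2 := sum_union_inter (s₁ := largeFrag H (ℓ / 2) W) (s₂ := G)
            (f := fun T : Finset α => p ^ #T)
          have h3 : 0 ≤ ∑ T ∈ largeFrag H (ℓ / 2) W ∩ G, p ^ #T :=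
            sum_nonneg fun T _ => by positivity
          simp only [cost] at h hG0 ⊢
          linarith
      rw [← hr] at hle
      have hf1 : biasedSum univ r (miss (smallFrag H (ℓ / 2) W)) ≤ 1 :=
        (biasedSum_le hr01.1 hr01.2 (miss_le_one _)).trans_eq (biasedSum_one _ _)
      have hmono := biasedSum_le (s := (univ : Finset α)) hr01.1 hr01.2
        (miss_union_le H (ℓ / 2) W)
      nlinarith [mul_le_mul_of_nonneg_right hmono hc0.le, mul_le_mul_of_nonneg_right hf1 hG0]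
    have e : 1 - (1 - s ^ 2 * p) ^ (k + 1) = 1 - (1 - s ^ 2 * p) * (1 - r) := by
      rw [hr, pow_succ']; ring
    rw [e, ← biasedSum_union, biasedSum_mul]
    refine (biasedSum_le (by positivity) hq hstep).trans ?_
    have h := biasedSum_add (univ : Finset α) (s ^ 2 * p) (1 / s * (1 - (1 / 2) ^ (ℓ / 2))) 1
      (fun _ => 1) fun W => cost p (largeFrag H (ℓ / 2) W)
    simp only [mul_one, one_mul, biasedSum_one] at h
    rw [h]
    have hcost := biasedSum_cost_large_le hH hp hs hq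
    have hhalf : (1 / 2 : ℝ) ^ (ℓ / 2) ≥ 2 * (1 / 2) ^ ℓ := by
      calc (2 : ℝ) * (1 / 2) ^ ℓ = (1 / 2) ^ (ℓ - 1) := by
            conv_lhs => rw [show ℓ = ℓ - 1 + 1 by omega, pow_succ]
            ring
        _ ≤ _ := pow_le_pow_of_le_one (by norm_num) (by norm_num) (by omega)
    have : 1 / s * (2 * (1 / 2) ^ ℓ) ≤ 1 / s * (1 / 2) ^ (ℓ / 2) :=
      mul_le_mul_of_nonneg_left hhalf (by positivity)
    linarith

end FA.KahnKalai
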