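import Fermat.Agent.KahnKalai.Threshold

/-!
# Spread families and sunflowers

A spread family has no cheap cover, so by the theorem of Park and Pham a sparse random set contains
a member with probability at least three quarters. In a random colouring by `2 r` colours at least
`r` classes then contain members, which gives the sunflower bound `(32 r (log k + 1)) ^ k` (Alweiss,
Lovett, Wu and Zhang 2020; Rao; Bell, Chueluecha and Warnke).
-/

set_option autoImplicit false

noncomputable section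

namespace FA.KahnKalai

open Finset

variable {α : Type*} [Fintype α] [DecidableEq α]

/-- No nonempty `T` lies in more than `#F / R ^ #T` members. -/
def IsSpread (R : ℕ) (F : Finset (Finset α)) : Prop :=
  ∀ T : Finset α, #{S ∈ F | T ⊆ S} * R ^ #T ≤ #F

omit [Fintype α] in
theorem one_le_cost_of_spread {R : ℕ} (hR : 0 < R) {F G : Finset (Finset α)} (hne : F.Nonempty)
    (hF : IsSpread R F) (hG : Covers G F) : (1 : ℝ) ≤ cost (R : ℝ)⁻¹ G := by
  have h1 : #F ≤ ∑ T ∈ G, #{S ∈ F | T ⊆ S} := by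
    refine (card_le_card fun S hS => ?_).trans card_biUnion_le
    obtain ⟨T, hT, hTS⟩ := hG S hS
    exact mem_biUnion.2 ⟨T, hT, mem_filter.2 ⟨hS, hTS⟩⟩
  have h2 : ∀ T ∈ G, (#{S ∈ F | T ⊆ S} : ℝ) ≤ #F * (R : ℝ)⁻¹ ^ #T := fun T _ => by
    rw [inv_pow, ← div_eq_mul_inv, le_div_iff₀ (by positivity)]
    exact_mod_cast hF T
  have h3 : (#F : ℝ) ≤ #F * cost (R : ℝ)⁻¹ G := by
    rw [cost, mul_sum]
    exact le_trans (by exact_mod_cast h1) (sum_le_sum h2)
  exact le_of_mul_le_mul_left (by rwa [mul_one]) (Nat.cast_pos.2 hne.card_pos)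

theorem biasedSum_miss_anti (H : Finset (Finset α)) {p r : ℝ} (hp : 0 ≤ p) (hpr : p ≤ r)
    (hr : r ≤ 1) : biasedSum univ r (miss H) ≤ biasedSum univ p (miss H) := by
  rcases eq_or_lt_of_le (hpr.trans hr) with h | h
  · obtain rfl : p = r := le_antisymm hpr (h ▸ hr)
    exact le_rfl
  obtain ⟨t, ht⟩ : ∃ t, t = (r - p) / (1 - p) := ⟨_, rfl⟩
  have ht0 : 0 ≤ t := ht ▸ div_nonneg (sub_nonneg.2 hpr) (by linarith)
  have ht1 : t ≤ 1 := ht ▸ (div_le_one (by linarith)).2 (by linarith)
  have he : 1 - (1 - p) * (1 - t) = r := by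
    rw [ht]; field_simp [(show (1 - p) ≠ 0 by linarith)]; ring
  rw [← he, ← biasedSum_union]
  refine biasedSum_le hp h.le fun W => ?_
  refine (biasedSum_le ht0 ht1 (g := fun _ => 1 * miss H W) fun U => ?_).trans_eq ?_
  · unfold miss
    split_ifs with h1 h2 <;> norm_num
    exact absurd (fun S hS hSW => h1 S hS (hSW.trans subset_union_left)) h2
  · simp only [biasedSum, one_mul, ← sum_mul]
    rw [sum_pow_mul_eq_add_pow]
    simp

/-- A colour class of a random colouring is a biased random set. -/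
theorem sum_colourings {N : ℕ} (hN : 0 < N) (c : Fin N) (g : Finset α → ℝ) :
    ∑ f : α → Fin N, g (univ.filter fun x => f x = c) =
      (N : ℝ) ^ Fintype.card α * biasedSum univ (N : ℝ)⁻¹ g := by
  rw [← sum_fiberwise univ (fun f : α → Fin N => univ.filter fun x => f x = c), biasedSum,
    mul_sum, powerset_univ]
  refine sum_congr rfl fun Z _ => ?_
  rw [sum_congr rfl fun f hf => congrArg g (mem_filter.1 hf).2, sum_const, nsmul_eq_mul]
  have e : (univ.filter fun f : α → Fin N => (univ.filter fun x => f x = c) = Z) =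
      Fintype.piFinset fun x => if x ∈ Z then {c} else univ.erase c := by
    ext f
    simp only [mem_filter, mem_univ, true_and, Fintype.mem_piFinset, Finset.ext_iff]
    refine forall_congr' fun x => ?_
    split_ifs with hx <;> simp [hx]
  rw [e, Fintype.card_piFinset]
  simp only [apply_ite card, card_singleton, card_erase_of_mem (mem_univ c), card_univ,
    Fintype.card_fin]
  rw [prod_ite, prod_const_one, one_mul, prod_const, filter_not, filter_mem_eq_inter, univ_inter,
    card_univ_sdiff]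
  have hn : #Z + (Fintype.card α - #Z) = Fintype.card α := Nat.add_sub_cancel' (card_le_univ _)
  have h1 : (N : ℝ) * (1 - (N : ℝ)⁻¹) = ((N - 1 : ℕ) : ℝ) := by
    rw [Nat.cast_sub hN, mul_sub, mul_one, mul_inv_cancel₀ (by positivity), Nat.cast_one]
  conv_rhs => rw [show (N : ℝ) ^ Fintype.card α = (N : ℝ) ^ (#Z + (Fintype.card α - #Z)) by
    rw [hn]]
  rw [pow_add, Nat.cast_pow, ← h1, mul_pow, inv_pow]
  field_simp

/-- **Disjoint members of a spread family.** -/
theorem exists_disjoint_of_spread {k r : ℕ} (hk : 0 < k) {R : ℕ}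
    (hR : 32 * r * (Nat.log 2 k + 1) ≤ R) {F : Finset (Finset α)} (hne : F.Nonempty)
    (hcard : ∀ S ∈ F, #S = k) (hF : IsSpread R F) :
    ∃ G ⊆ F, #G = r ∧ ∀ A ∈ G, ∀ B ∈ G, A ≠ B → Disjoint A B := by
  classical
  rcases Nat.eq_zero_or_pos r with rfl | hr
  · exact ⟨∅, empty_subset _, rfl, by simp⟩
  obtain ⟨j, hj⟩ : ∃ j, j = Nat.log 2 k + 1 := ⟨_, rfl⟩
  rw [← hj] at hR
  have hR0 : 0 < R := lt_of_lt_of_le (show 0 < 32 * r * j by rw [hj]; positivity) hR
  have hRR : (32 : ℝ) * r * j ≤ R := by exact_mod_cast hR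
  have hj1 : (1 : ℝ) ≤ j := by rw [hj]; simp
  have hr1 : (1 : ℝ) ≤ r := by exact_mod_cast hr
  have hq : (4 : ℝ) ^ 2 * (R : ℝ)⁻¹ ≤ 1 := by
    rw [← div_eq_mul_inv, div_le_one (by positivity)]
    nlinarith
  have hmiss := miss_mul_le (inv_pos.2 (Nat.cast_pos.2 hR0)) le_rfl hq j F k 1
    (hj ▸ Nat.lt_pow_succ_log_self one_lt_two k) (fun S hS => (hcard S hS).le)
    fun G hG => one_le_cost_of_spread hR0 hne hF hG
  rw [mul_one] at hmiss
  have hle : biasedSum univ ((2 * r : ℕ) : ℝ)⁻¹ (miss F) ≤ 1 / 4 := by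
    refine (biasedSum_miss_anti F
      (p := 1 - (1 - (4:ℝ) ^ 2 * (R : ℝ)⁻¹) ^ j) ?_ ?_ ?_).trans (hmiss.trans ?_)
    · exact sub_nonneg.2 (pow_le_one₀ (by linarith) (sub_le_self _ (by positivity)))
    · have := one_add_mul_le_pow (a := -((4:ℝ) ^ 2 * (R : ℝ)⁻¹)) (by linarith) j
      rw [← sub_eq_add_neg (1:ℝ)] at this
      refine le_trans (b := (16 * j : ℝ) / R) (by rw [div_eq_mul_inv]; linarith) ?_
      rw [Nat.cast_mul, inv_eq_one_div, div_le_div_iff₀ (by positivity) (by positivity)]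
      push_cast
      linarith
    · exact inv_le_one_of_one_le₀ (by push_cast; linarith)
    · exact mul_le_of_le_one_right (by norm_num) (sub_le_self _ (by positivity))
  obtain ⟨f, -, hf⟩ := exists_le_of_sum_le (s := (univ : Finset (α → Fin (2 * r))))
    (f := fun f : α → Fin (2 * r) => ∑ c, miss F (univ.filter fun x => f x = c))
    (g := fun _ => ((2 * r : ℕ) : ℝ) * (1 / 4))
    ⟨fun _ => ⟨0, by omega⟩, mem_univ _⟩ (by
      rw [sum_comm, sum_congr rfl fun c _ => sum_colourings (N := 2 * r) (by omega) c (miss F),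
        sum_const, sum_const, card_univ, card_univ, Fintype.card_fin, Fintype.card_fun,
        Fintype.card_fin, nsmul_eq_mul, nsmul_eq_mul, Nat.cast_pow]
      rw [mul_left_comm ((((2 * r : ℕ) : ℝ)) ^ Fintype.card α)]
      gcongr)
  obtain ⟨C, hC⟩ : ∃ C, C = univ.filter fun c : Fin (2 * r) =>
      ∃ S ∈ F, S ⊆ univ.filter fun x => f x = c := ⟨_, rfl⟩
  have hCcard : r ≤ #C := by
    have h : ((2 * r : ℕ) : ℝ) - #C ≤ ((2 * r : ℕ) : ℝ) * (1 / 4) := by
      refine le_trans ?_ hf
      refine le_trans (le_of_eq ?_) (sum_le_sum_of_subset_of_nonneg (s := Cᶜ) (subset_univ _)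
        fun c _ _ => miss_nonneg _ _)
      rw [show ∑ c ∈ Cᶜ, miss F (univ.filter fun x => f x = c) = ∑ c ∈ Cᶜ, (1 : ℝ) from
          sum_congr rfl fun c hc => if_pos fun S hS hSc => by
            rw [mem_compl, hC, mem_filter] at hc
            exact hc ⟨mem_univ _, S, hS, hSc⟩,
        sum_const, nsmul_one, card_compl, Fintype.card_fin,
        Nat.cast_sub ((card_le_univ C).trans_eq (Fintype.card_fin _))]
    have : (r : ℝ) ≤ #C := by push_cast at h; linarith
    exact_mod_cast this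
  obtain ⟨C', hC', hC'card⟩ := exists_subset_card_eq hCcard
  have hsel : ∀ c ∈ C', ∃ S ∈ F, S ⊆ univ.filter fun x => f x = c := fun c hc => by
    have := hC' hc
    rw [hC, mem_filter] at this
    exact this.2
  choose! S hSF hS using hsel
  have hdisj : ∀ a ∈ C', ∀ b ∈ C', a ≠ b → Disjoint (S a) (S b) := fun a ha b hb hab =>
    disjoint_left.2 fun x hxa hxb => hab <| by
      rw [← (mem_filter.1 (hS a ha hxa)).2, (mem_filter.1 (hS b hb hxb)).2]
  have hinj : Set.InjOn S C' := fun a ha b hb hab => by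
    by_contra hne'
    have h0 := hdisj a ha b hb hne'
    rw [hab, disjoint_self] at h0
    have := hcard _ (hSF b hb)
    simp [h0] at this
    omega
  refine ⟨C'.image S, fun A hA => ?_, by rw [card_image_of_injOn hinj, hC'card], ?_⟩
  · obtain ⟨c, hc, rfl⟩ := mem_image.1 hA
    exact hSF c hc
  · intro A hA B hB hAB
    obtain ⟨a, ha, rfl⟩ := mem_image.1 hA
    obtain ⟨b, hb, rfl⟩ := mem_image.1 hB
    exact hdisj a ha b hb fun h => hAB (h ▸ rfl)

theorem exists_sunflower_fintype {k₀ r R : ℕ} (hR : 32 * r * (Nat.log 2 k₀ + 1) ≤ R) :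
    ∀ k, k ≤ k₀ → ∀ F : Finset (Finset α), (∀ S ∈ F, #S = k) → R ^ k < #F →
      ∃ G ⊆ F, #G = r ∧ ∃ core, ∀ A ∈ G, ∀ B ∈ G, A ≠ B → A ∩ B = core := by
  intro k
  induction k using Nat.strong_induction_on with
  | _ k ih =>
  intro hk F hcard hbig
  rcases Nat.eq_zero_or_pos k with rfl | hk0
  · have : F ⊆ {∅} := fun S hS => mem_singleton.2 (card_eq_zero.1 (hcard S hS))
    have := card_le_card this
    simp at hbig this
    omega
  by_cases hspread : IsSpread R F
  · obtain ⟨G, hG, hGr, hdisj⟩ := exists_disjoint_of_spread hk0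
      ((Nat.mul_le_mul_left _ (Nat.succ_le_succ (Nat.log_mono_right hk))).trans hR)
      (card_pos.1 (by omega)) hcard hspread
    exact ⟨G, hG, hGr, ∅, fun A hA B hB h => disjoint_iff_inter_eq_empty.1 (hdisj A hA B hB h)⟩
  simp only [IsSpread, not_forall, not_le] at hspread
  obtain ⟨T, hT⟩ := hspread
  have hT0 : 0 < #T := Nat.pos_of_ne_zero fun h => by
    rw [card_eq_zero.1 h] at hT
    simp at hT
  have hTk : #T ≤ k := by
    obtain ⟨S, hS⟩ := card_pos.1 (Nat.pos_of_ne_zero fun h => by simp [h] at hT :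
      0 < #{S ∈ F | T ⊆ S})
    exact hcard S (mem_filter.1 hS).1 ▸ card_le_card (mem_filter.1 hS).2
  have hinj : Set.InjOn (fun S => S \ T) ↑({S ∈ F | T ⊆ S} : Finset (Finset α)) :=
    fun A hA B hB h => by
      rw [← sdiff_union_of_subset (mem_filter.1 hA).2, ← sdiff_union_of_subset (mem_filter.1 hB).2]
      exact congrArg (· ∪ T) h
  obtain ⟨G, hG, hGr, core, hcore⟩ := ih (k - #T) (by omega) (by omega)
    (({S ∈ F | T ⊆ S} : Finset (Finset α)).image fun S => S \ T)
    (fun A hA => by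
      obtain ⟨S, hS, rfl⟩ := mem_image.1 hA
      rw [card_sdiff_of_subset (mem_filter.1 hS).2, hcard S (mem_filter.1 hS).1])
    (by
      rw [card_image_of_injOn hinj]
      by_contra hle
      have := Nat.mul_le_mul_right (R ^ #T) (not_lt.1 hle)
      rw [← pow_add, Nat.sub_add_cancel hTk] at this
      omega)
  refine ⟨G.image (· ∪ T), fun A hA => ?_, ?_, core ∪ T, fun A hA B hB hAB => ?_⟩
  · obtain ⟨B, hB, rfl⟩ := mem_image.1 hA
    obtain ⟨S, hS, rfl⟩ := mem_image.1 (hG hB)
    rw [sdiff_union_of_subset (mem_filter.1 hS).2]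
    exact (mem_filter.1 hS).1
  · rw [card_image_of_injOn, hGr]
    intro A hA B hB h
    obtain ⟨S, hS, rfl⟩ := mem_image.1 (hG hA)
    obtain ⟨S', hS', rfl⟩ := mem_image.1 (hG hB)
    simp only [sdiff_union_of_subset (mem_filter.1 hS).2,
      sdiff_union_of_subset (mem_filter.1 hS').2] at h
    rw [h]
  · obtain ⟨a, ha, rfl⟩ := mem_image.1 hA
    obtain ⟨b, hb, rfl⟩ := mem_image.1 hB
    rw [← inter_union_distrib_right, hcore a ha b hb fun h => hAB (h ▸ rfl)]

theorem exists_sunflower {β : Type*} [DecidableEq β] {k r : ℕ} {F : Finset (Finset β)}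
    (hcard : ∀ S ∈ F, #S = k) (hbig : (32 * r * (Nat.log 2 k + 1)) ^ k < #F) :
    ∃ G ⊆ F, #G = r ∧ ∃ core, ∀ A ∈ G, ∀ B ∈ G, A ≠ B → A ∩ B = core := by
  obtain ⟨X, hX⟩ : ∃ X, X = F.biUnion id := ⟨_, rfl⟩
  let e : ↥X ↪ β := Function.Embedding.subtype _
  have hback : ∀ S ∈ F, (S.subtype (· ∈ X)).map e = S := fun S hS => by
    rw [subtype_map]
    exact filter_true_of_mem fun x hx => hX ▸ mem_biUnion.2 ⟨S, hS, hx⟩
  have hinj : Set.InjOn (fun S : Finset β => S.subtype (· ∈ X)) ↑F := fun A hA B hB h => by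
    rw [← hback A hA, ← hback B hB]
    exact congrArg (Finset.map e) h
  obtain ⟨G, hG, hGr, core, hcore⟩ := exists_sunflower_fintype (α := ↥X) (r := r) le_rfl k le_rfl
    (F.image fun S => S.subtype (· ∈ X))
    (fun A hA => by
      obtain ⟨S, hS, rfl⟩ := mem_image.1 hA
      rw [← hcard S hS, ← card_map e, hback S hS])
    (by rwa [card_image_of_injOn hinj])
  refine ⟨G.image (Finset.map e), fun A hA => ?_, ?_, core.map e, fun A hA B hB hAB => ?_⟩
  · obtain ⟨B, hB, rfl⟩ := mem_image.1 hA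
    obtain ⟨S, hS, rfl⟩ := mem_image.1 (hG hB)
    rw [hback S hS]
    exact hS
  · rw [card_image_of_injective _ (Finset.map_injective e), hGr]
  · obtain ⟨a, ha, rfl⟩ := mem_image.1 hA
    obtain ⟨b, hb, rfl⟩ := mem_image.1 hB
    rw [← map_inter, hcore a ha b hb fun h => hAB (h ▸ rfl)]

end FA.KahnKalai
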