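import Fermat.Agent.KahnKalai.ParkPham
import Mathlib.Analysis.SpecialFunctions.Log.Base
import Mathlib.Analysis.Complex.ExponentialBounds
import Mathlib.Topology.Order.IntermediateValue
import Mathlib.Order.Minimal

/-!
# Thresholds of increasing families

The probability of an increasing family in the `p`-biased cube is strictly increasing, and the
theorem of Park and Pham bounds the place where it passes one half by the expectation threshold.
-/

set_option autoImplicit false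

noncomputable section

namespace FA.KahnKalai

open Finset

variable {α : Type*} [Fintype α] [DecidableEq α]

/-- The probability of a family in the `p`-biased cube. -/
def probFamily (p : ℝ) (F : Finset (Finset α)) : ℝ :=
  ∑ S ∈ F, p ^ #S * (1 - p) ^ (Fintype.card α - #S)

theorem probFamily_eq (p : ℝ) (F : Finset (Finset α)) :
    probFamily p F = biasedSum univ p (fun S => if S ∈ F then 1 else 0) := by
  rw [probFamily, biasedSum]
  simp [mul_ite, card_univ]

theorem probFamily_strictMono {F : Finset (Finset α)} (hF : IsUpperSet (F : Set (Finset α)))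
    (hne : F.Nonempty) (hne' : F ≠ univ) {p r : ℝ} (hp : 0 ≤ p) (hpr : p < r) (hr : r ≤ 1) :
    probFamily p F < probFamily r F := by
  have h1p : 0 < 1 - p := by linarith
  obtain ⟨t, ht⟩ : ∃ t, t = (r - p) / (1 - p) := ⟨_, rfl⟩
  have ht0 : 0 < t := ht ▸ div_pos (by linarith) h1p
  have ht1 : t ≤ 1 := ht ▸ (div_le_one h1p).2 (by linarith)
  have he : 1 - (1 - p) * (1 - t) = r := by rw [ht]; field_simp; ring
  obtain ⟨f, hf⟩ : ∃ f : Finset α → ℝ, f = fun S => if S ∈ F then 1 else 0 := ⟨_, rfl⟩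
  have hfmono : ∀ W U, f W ≤ f (W ∪ U) := fun W U => by
    simp only [hf]
    split_ifs with h h' <;> norm_num
    exact h' (hF subset_union_left h)
  have hpos : ∀ W, 0 ≤ f W := fun W => by simp only [hf]; split_ifs <;> norm_num
  obtain ⟨S, hS⟩ := hne
  have huniv : (univ : Finset α) ∈ F := hF (subset_univ S) hS
  have hempty : ∅ ∉ F := fun h => hne' (eq_univ_of_forall fun W => hF (empty_subset W) h)
  rw [probFamily_eq, probFamily_eq, ← hf, ← he, ← biasedSum_union]
  refine sum_lt_sum (fun W _ => mul_le_mul_of_nonneg_left ?_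
    (mul_nonneg (pow_nonneg hp _) (pow_nonneg h1p.le _))) ⟨∅, empty_mem_powerset _, ?_⟩
  · calc f W = biasedSum univ t (fun _ => f W) := by
          simp only [biasedSum, ← sum_mul]
          rw [sum_pow_mul_eq_add_pow]
          simp
      _ ≤ _ := biasedSum_le ht0.le ht1 (hfmono W)
  · refine mul_lt_mul_of_pos_left ?_ (by simp; positivity)
    have h0 : f ∅ = 0 := by simp [hf, hempty]
    rw [h0]
    refine sum_pos' (fun U _ => mul_nonneg (mul_nonneg (pow_nonneg ht0.le _)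
      (pow_nonneg (by linarith) _)) (hpos _)) ⟨univ, mem_powerset.2 subset_rfl, ?_⟩
    simp [hf, huniv, ht0]

theorem probFamily_mono {F : Finset (Finset α)} (hF : IsUpperSet (F : Set (Finset α)))
    (hne : F.Nonempty) (hne' : F ≠ univ) {p r : ℝ} (hp : 0 ≤ p) (hpr : p ≤ r) (hr : r ≤ 1) :
    probFamily p F ≤ probFamily r F := by
  rcases eq_or_lt_of_le hpr with rfl | h
  · exact le_rfl
  · exact (probFamily_strictMono hF hne hne' hp h hr).le

/-- **Park–Pham, for increasing families.** -/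
theorem half_lt_probFamily {F : Finset (Finset α)} (hF : IsUpperSet (F : Set (Finset α)))
    (hne : F.Nonempty) (hne' : F ≠ univ) {ℓ : ℕ} (hmin : ∀ S, Minimal (· ∈ F) S → #S ≤ ℓ)
    {p : ℝ} (hp : 0 < p) (hsmall : ∀ G, Covers G F → 1 / 2 < cost p G)
    (hk : 16 * p * (Nat.log 2 ℓ + 1) ≤ 1) :
    1 / 2 < probFamily (16 * p * (Nat.log 2 ℓ + 1)) F := by
  classical
  obtain ⟨H, hH⟩ : ∃ H : Finset (Finset α), H = F.filter fun S => Minimal (· ∈ F) S := ⟨_, rfl⟩
  have hdown : ∀ S ∈ F, ∃ T ∈ H, T ⊆ S := fun S hS => by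
    obtain ⟨T, hTS, hT⟩ := exists_minimal_le_of_wellFoundedLT (· ∈ F) S hS
    exact ⟨T, hH ▸ mem_filter.2 ⟨hT.1, hT⟩, hTS⟩
  have hcov : ∀ G, Covers G H → 1 / 2 ≤ cost p G := fun G hG => (hsmall G fun S hS => by
    obtain ⟨T, hT, hTS⟩ := hdown S hS
    obtain ⟨U, hU, hUT⟩ := hG T hT
    exact ⟨U, hU, hUT.trans hTS⟩).le
  obtain ⟨k, hk'⟩ : ∃ k, k = Nat.log 2 ℓ + 1 := ⟨_, rfl⟩
  obtain ⟨r, hr⟩ : ∃ r, r = 1 - (1 - (4:ℝ) ^ 2 * p) ^ k := ⟨_, rfl⟩
  have hq : (4:ℝ) ^ 2 * p ≤ 1 := by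
    have : (1:ℝ) ≤ Nat.log 2 ℓ + 1 := by simp
    nlinarith
  have key := miss_mul_le hp le_rfl hq k H ℓ (1 / 2) (hk' ▸ Nat.lt_pow_succ_log_self one_lt_two ℓ)
    (fun S hS => hmin S (mem_filter.1 (hH ▸ hS)).2) hcov
  rw [← hr] at key
  have hmiss : ∀ Z, miss H Z = 1 - if Z ∈ F then (1:ℝ) else 0 := fun Z => by
    unfold miss
    by_cases hZ : Z ∈ F
    · obtain ⟨T, hT, hTZ⟩ := hdown Z hZ
      rw [if_neg fun h => h T hT hTZ, if_pos hZ, sub_self]
    · rw [if_pos fun S hS hSZ => hZ (hF hSZ (mem_filter.1 (hH ▸ hS)).1), if_neg hZ, sub_zero]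
  have hsum : biasedSum univ r (miss H) = 1 - probFamily r F := by
    rw [probFamily_eq]
    have h := biasedSum_add (univ : Finset α) r 1 (-1) (fun _ => 1)
      fun Z => if Z ∈ F then (1:ℝ) else 0
    simp only [biasedSum_one] at h
    rw [show miss H = fun Z => 1 * (fun _ => (1:ℝ)) Z + -1 * if Z ∈ F then (1:ℝ) else 0 from
      funext fun Z => by rw [hmiss]; ring, h]
    ring
  rw [hsum] at key
  have hr0 : 0 ≤ r := hr ▸ sub_nonneg.2 (pow_le_one₀ (by linarith) (by nlinarith))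
  have hrle : r ≤ 16 * p * (Nat.log 2 ℓ + 1) := by
    have := one_add_mul_le_pow (a := -((4:ℝ) ^ 2 * p)) (by linarith) k
    rw [hr, hk'] at *
    push_cast at this ⊢
    simp only [← sub_eq_add_neg] at this
    linarith
  refine lt_of_lt_of_le ?_ (probFamily_mono hF hne hne' hr0 hrle hk)
  have : (0:ℝ) < (1 / 2) ^ ℓ := by positivity
  linarith

theorem exists_threshold {F : Finset (Finset α)} (hF : IsUpperSet (F : Set (Finset α)))
    (hne : F.Nonempty) (hne' : F ≠ univ) :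
    ∃! p, p ∈ Set.Icc (0:ℝ) 1 ∧ probFamily p F = 1 / 2 := by
  obtain ⟨S, hS⟩ := hne
  have huniv : (univ : Finset α) ∈ F := hF (subset_univ S) hS
  have hempty : ∅ ∉ F := fun h => hne' (eq_univ_of_forall fun W => hF (empty_subset W) h)
  have h0 : probFamily 0 F = 0 := sum_eq_zero fun W hW => by
    rw [zero_pow fun h : #W = 0 => hempty (card_eq_zero.1 h ▸ hW), zero_mul]
  have h1 : probFamily 1 F = 1 := by
    rw [probFamily, sum_eq_single_of_mem _ huniv fun W _ hW => ?_]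
    · simp [card_univ]
    · rw [sub_self, zero_pow, mul_zero]
      intro h
      exact hW (eq_univ_of_card _ (le_antisymm (card_le_univ _) (by omega)))
  have hc : Continuous fun p : ℝ => probFamily p F := by unfold probFamily; fun_prop
  obtain ⟨p, hp, hhalf⟩ := intermediate_value_Icc zero_le_one hc.continuousOn
    (show (1 / 2 : ℝ) ∈ Set.Icc (probFamily 0 F) (probFamily 1 F) by
      rw [h0, h1]; constructor <;> norm_num)
  refine ⟨p, ⟨hp, hhalf⟩, fun q ⟨hq, hq2⟩ => ?_⟩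
  rcases lt_trichotomy q p with h | h | h
  · have := probFamily_strictMono hF ⟨S, hS⟩ hne' hq.1 h hp.2
    simp only at hhalf; linarith
  · exact h
  · have := probFamily_strictMono hF ⟨S, hS⟩ hne' hp.1 h hq.2
    simp only at hhalf; linarith

/-- **The Kahn–Kalai conjecture.** -/
theorem threshold_le {F : Finset (Finset α)} (hF : IsUpperSet (F : Set (Finset α)))
    (hne : F.Nonempty) (hne' : F ≠ univ) {ℓ : ℕ} (hℓ : 2 ≤ ℓ)
    (hmin : ∀ S, Minimal (· ∈ F) S → #S ≤ ℓ) {pc : ℝ} (hpc : pc ≤ 1)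
    (hhalf : probFamily pc F ≤ 1 / 2) :
    pc ≤ 47 * sSup {p | p ∈ Set.Icc (0:ℝ) 1 ∧ ∃ G, Covers G F ∧ cost p G ≤ 1 / 2} *
      Real.log ℓ := by
  obtain ⟨Q, hQ⟩ : ∃ Q, Q = {p | p ∈ Set.Icc (0:ℝ) 1 ∧ ∃ G, Covers G F ∧ cost p G ≤ 1 / 2} :=
    ⟨_, rfl⟩
  rw [← hQ]
  have hbdd : BddAbove Q := ⟨1, fun p hp => by rw [hQ] at hp; exact hp.1.2⟩
  have hempty : ∅ ∉ F := fun h => hne' (eq_univ_of_forall fun W => hF (empty_subset W) h)
  have h0 : (0:ℝ) ∈ Q := by
    rw [hQ]
    refine ⟨⟨le_rfl, zero_le_one⟩, F, fun S hS => ⟨S, hS, subset_rfl⟩, ?_⟩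
    rw [cost, sum_eq_zero fun W hW =>
      zero_pow fun h : #W = 0 => hempty (card_eq_zero.1 h ▸ hW)]
    norm_num
  have hq0 : 0 ≤ sSup Q := le_csSup hbdd h0
  have hlog : 0 < Real.log ℓ := Real.log_pos (by exact_mod_cast hℓ)
  by_contra hlt
  push Not at hlt
  obtain ⟨p, hp, hp'⟩ : ∃ p, sSup Q < p ∧ 47 * p * Real.log ℓ < pc := by
    refine ⟨(sSup Q + pc / (47 * Real.log ℓ)) / 2, ?_, ?_⟩
    · have : sSup Q < pc / (47 * Real.log ℓ) := by rw [lt_div_iff₀ (by positivity)]; linarith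
      linarith
    · field_simp
      linarith
  have hp0 : 0 < p := lt_of_le_of_lt hq0 hp
  have hk : 16 * p * ((Nat.log 2 ℓ : ℝ) + 1) ≤ 47 * p * Real.log ℓ := by
    have h2 := Real.log_two_gt_d9
    have h3 : (Nat.log 2 ℓ : ℝ) ≤ Real.log ℓ / Real.log 2 := Real.natLog_le_logb ℓ 2
    have h4 : (1:ℝ) ≤ Real.log ℓ / Real.log 2 :=
      (one_le_div (Real.log_pos one_lt_two)).2 (Real.log_le_log two_pos (by exact_mod_cast hℓ))
    have h5 : 32 * (Real.log ℓ / Real.log 2) ≤ 47 * Real.log ℓ := by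
      rw [mul_div_assoc', div_le_iff₀ (Real.log_pos one_lt_two)]
      nlinarith
    nlinarith
  have hp1 : p ≤ 1 := by nlinarith [Nat.cast_nonneg (α := ℝ) (Nat.log 2 ℓ)]
  have hsmall : ∀ G, Covers G F → 1 / 2 < cost p G := fun G hG => by
    by_contra h
    push Not at h
    have hmem : p ∈ Q := by rw [hQ]; exact ⟨⟨hp0.le, hp1⟩, G, hG, h⟩
    exact absurd (le_csSup hbdd hmem) (not_le.2 hp)
  have h := half_lt_probFamily hF hne hne' hmin hp0 hsmall (by linarith)
  have := probFamily_mono hF hne hne' (by positivity) (show 16 * p * ((Nat.log 2 ℓ : ℝ) + 1) ≤ pc by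
    linarith) hpc
  linarith

end FA.KahnKalai
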